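/-
P-MW / Block E, row MW-E-GRP (helper80): class groups from a multiplicative map on ideals.

`theorem classGroupEquiv : Fermat.Agent.H23.MWE.ClassGroupEquivStatement`.
-/
import Fermat.Agent.H23.MWE.Interfaces

set_option autoImplicit false

noncomputable section

open scoped nonZeroDivisors

namespace Fermat.Agent.H80.MWE

variable {R : Type} [CommRing R] [IsDedekindDomain R] {G : Type} [AddCommGroup G]

/-- A nonzero principal ideal as an element of `(Ideal R)⁰`. -/
def spanNZ (x : R) (hx : x ≠ 0) : (Ideal R)⁰ :=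
  ⟨Ideal.span {x}, mem_nonZeroDivisors_iff_ne_zero.mpr
    (fun h => hx (Ideal.span_singleton_eq_bot.mp h))⟩

theorem phi_eq_of_mk0_eq (φ : (Ideal R)⁰ → G)
    (hmul : ∀ I J : (Ideal R)⁰, φ (I * J) = φ I + φ J)
    (hker : ∀ I : (Ideal R)⁰, φ I = 0 ↔ Submodule.IsPrincipal (I : Ideal R))
    {I J : (Ideal R)⁰} (h : ClassGroup.mk0 I = ClassGroup.mk0 J) : φ I = φ J := by
  obtain ⟨x, y, hx, hy, hxy⟩ := ClassGroup.mk0_eq_mk0_iff.mp h
  have h1 : spanNZ x hx * I = spanNZ y hy * J := Subtype.ext hxy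
  have h2 := congrArg φ h1
  rw [hmul, hmul] at h2
  have hpx : φ (spanNZ x hx) = 0 := (hker _).mpr ⟨⟨x, rfl⟩⟩
  have hpy : φ (spanNZ y hy) = 0 := (hker _).mpr ⟨⟨y, rfl⟩⟩
  rw [hpx, hpy, zero_add, zero_add] at h2
  exact h2

/-- **MW-E-GRP.** -/
theorem classGroupEquiv : Fermat.Agent.H23.MWE.ClassGroupEquivStatement := by
  intro R _ _ G _ φ hmul hker hsurj
  classical
  let f : ClassGroup R → G := fun c => φ (Classical.choose (ClassGroup.mk0_surjective c))
  have hf : ∀ I : (Ideal R)⁰, f (ClassGroup.mk0 I) = φ I := fun I =>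
    phi_eq_of_mk0_eq φ hmul hker (Classical.choose_spec (ClassGroup.mk0_surjective
      (ClassGroup.mk0 I)))
  have hadd : ∀ a b : ClassGroup R, f (a * b) = f a + f b := by
    intro a b
    obtain ⟨I, rfl⟩ := ClassGroup.mk0_surjective a
    obtain ⟨J, rfl⟩ := ClassGroup.mk0_surjective b
    rw [← map_mul, hf, hf, hf, hmul]
  let ψ : Additive (ClassGroup R) →+ G :=
    AddMonoidHom.mk' (fun a => f (Additive.toMul a)) (fun a b => hadd _ _)
  have hψ : ∀ a : Additive (ClassGroup R), ψ a = f (Additive.toMul a) := fun _ => rfl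
  have hinj : Function.Injective ψ := by
    rw [injective_iff_map_eq_zero]
    intro a ha
    obtain ⟨I, hI⟩ := ClassGroup.mk0_surjective (Additive.toMul a)
    rw [hψ, ← hI, hf] at ha
    have h1 : ClassGroup.mk0 I = 1 := (ClassGroup.mk0_eq_one_iff I.2).mpr ((hker I).mp ha)
    rw [hI] at h1
    exact h1
  have hsur : Function.Surjective ψ := by
    intro g
    obtain ⟨I, rfl⟩ := hsurj g
    exact ⟨Additive.ofMul (ClassGroup.mk0 I), hf I⟩
  exact ⟨AddEquiv.ofBijective ψ ⟨hinj, hsur⟩⟩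

end Fermat.Agent.H80.MWE

end
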