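/-
P-MW / Block E (helper80): the Galois-fixed elements of `ℚ̄ · F₀` are the elements of `F₀`,
in the form of the interface `Fermat.Agent.H23.MWE`.

`theorem fixedMWE : Fermat.Agent.H23.MWE.FixedStatement`.
-/
import Fermat.Agent.H23.MWE.Interfaces
import Fermat.Agent.H80.MW.Fixed

set_option autoImplicit false

noncomputable section

namespace Fermat.Agent.H80.MWE

/-- **MW-E-DESC (3).** -/
theorem fixedMWE : Fermat.Agent.H23.MWE.FixedStatement := by
  intro F₀ v hv
  obtain ⟨f, hf⟩ := Fermat.Agent.H80.MW.fixed F₀ v hv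
  exact ⟨f, Subtype.ext (congrArg Subtype.val hf)⟩

end Fermat.Agent.H80.MWE

end
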